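import Mathlib.Algebra.Polynomial.Inductions
import Mathlib.ModelTheory.Algebra.Field.IsAlgClosed
import Fermat.Agent.EffectiveCompleteness.Syntax

/-!
# Axioms with computable codes

The axioms of roots and of the characteristic, written with Horner terms and numerals, so that their
words are primitive recursive in the degree and in the number.
-/

set_option autoImplicit false

namespace FA.TarskiDecidability

open FirstOrder FirstOrder.Ring FirstOrder.Language Polynomial
open EffectiveCompleteness (termWord formWord varSym funSym termSym natSym)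

instance instEncodableRingFunctions : Encodable (Σ i, Language.ring.Functions i) :=
  Encodable.ofLeftInverse
    (fun p : Σ i, Language.ring.Functions i => ((match p with
      | ⟨_, .add⟩ => 0
      | ⟨_, .mul⟩ => 1
      | ⟨_, .neg⟩ => 2
      | ⟨_, .zero⟩ => 3
      | ⟨_, .one⟩ => 4) : Fin 5))
    ![⟨2, .add⟩, ⟨2, .mul⟩, ⟨1, .neg⟩, ⟨0, .zero⟩, ⟨0, .one⟩]
    fun p => by obtain ⟨i, _ | _⟩ := p <;> rfl

instance instEncodableRingRelations : Encodable (Σ i, Language.ring.Relations i) :=
  have : IsEmpty (Σ i, Language.ring.Relations i) := ⟨fun x => Empty.elim x.2⟩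
  IsEmpty.toEncodable

instance instFiniteRingFunctions : Finite (Σ i, Language.ring.Functions i) :=
  Finite.of_surjective
    (![⟨2, .add⟩, ⟨2, .mul⟩, ⟨1, .neg⟩, ⟨0, .zero⟩, ⟨0, .one⟩] :
      Fin 5 → Σ i, Language.ring.Functions i) fun p => by
    obtain ⟨i, _ | _⟩ := p
    exacts [⟨0, rfl⟩, ⟨1, rfl⟩, ⟨2, rfl⟩, ⟨3, rfl⟩, ⟨4, rfl⟩]

instance instFiniteRingRelations : Finite (Σ i, Language.ring.Relations i) :=
  have : IsEmpty (Σ i, Language.ring.Relations i) := ⟨fun x => Empty.elim x.2⟩
  inferInstance

section Words

variable {n : ℕ} (t u : Language.ring.Term (Empty ⊕ Fin n))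

/-- The symbol of `+`. -/
def addSym : ℕ := funSym (Encodable.encode (⟨2, addFunc⟩ : Σ i, Language.ring.Functions i))

/-- The symbol of `*`. -/
def mulSym : ℕ := funSym (Encodable.encode (⟨2, mulFunc⟩ : Σ i, Language.ring.Functions i))

/-- The symbol of `0`. -/
def zeroSym : ℕ := funSym (Encodable.encode (⟨0, zeroFunc⟩ : Σ i, Language.ring.Functions i))

/-- The symbol of `1`. -/
def oneSym : ℕ := funSym (Encodable.encode (⟨0, oneFunc⟩ : Σ i, Language.ring.Functions i))

theorem termWord_add : termWord (t + u) = addSym :: (termWord t ++ termWord u) := by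
  rw [show t + u = Term.func addFunc ![t, u] from rfl, EffectiveCompleteness.termWord_func]
  simp [addSym, List.ofFn_succ]

theorem termWord_mul : termWord (t * u) = mulSym :: (termWord t ++ termWord u) := by
  rw [show t * u = Term.func mulFunc ![t, u] from rfl, EffectiveCompleteness.termWord_func]
  simp [mulSym, List.ofFn_succ]

theorem termWord_zero : termWord (0 : Language.ring.Term (Empty ⊕ Fin n)) = [zeroSym] := by
  change termWord (Term.func zeroFunc _) = _
  rw [EffectiveCompleteness.termWord_func]
  simp [zeroSym]

theorem termWord_one : termWord (1 : Language.ring.Term (Empty ⊕ Fin n)) = [oneSym] := by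
  change termWord (Term.func oneFunc _) = _
  rw [EffectiveCompleteness.termWord_func]
  simp [oneSym]

theorem formWord_alls : ∀ {n : ℕ} (φ : Language.ring.BoundedFormula Empty n),
    formWord (n := 0) φ.alls = List.replicate n (natSym 1) ++ formWord φ
  | 0, φ => rfl
  | n + 1, φ => by
    rw [BoundedFormula.alls, formWord_alls φ.all, EffectiveCompleteness.formWord_all,
      List.replicate_succ', List.append_assoc]
    rfl

end Words

/-- The Horner term of a monic polynomial with the coefficients as the first variables. -/
def hornerTerm (n : ℕ) : Language.ring.Term (Empty ⊕ Fin (n + 1)) :=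
  (List.finRange n).foldl (fun t i => t * .var (.inr (Fin.last n)) + .var (.inr i.castSucc)) 1

/-- Every monic polynomial of degree `n` has a root. -/
def rootAxiom (n : ℕ) : Language.ring.Sentence :=
  (BoundedFormula.equal (hornerTerm n) 0).ex.alls

/-- A numeral. -/
def numeralTerm : ℕ → Language.ring.Term (Empty ⊕ Fin 0)
  | 0 => 0
  | n + 1 => 1 + numeralTerm n

/-- A number is zero. -/
def numeralZero (n : ℕ) : Language.ring.Sentence :=
  .equal (numeralTerm n) 0

section Realize

variable {K : Type*} [Field K] [CompatibleRing K]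

/-- A monic polynomial by Horner's rule. -/
noncomputable def hornerPoly {n : ℕ} (a : Fin n → K) : K[X] :=
  (List.finRange n).foldl (fun q i => q * X + C (a i)) 1

omit [CompatibleRing K] in
theorem hornerPoly_spec {n : ℕ} (a : Fin n → K) :
    (hornerPoly a).Monic ∧ (hornerPoly a).natDegree = n := by
  suffices h : ∀ (l : List (Fin n)) (q : K[X]), q.Monic →
      (l.foldl (fun q i => q * X + C (a i)) q).Monic ∧
        (l.foldl (fun q i => q * X + C (a i)) q).natDegree = q.natDegree + l.length by
    simpa [hornerPoly] using h (List.finRange n) 1 monic_one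
  intro l
  induction l with
  | nil => exact fun q hq => ⟨hq, rfl⟩
  | cons i l ih =>
    intro q hq
    have h1 : (q * X).natDegree = q.natDegree + 1 := natDegree_mul_X hq.ne_zero
    have h2 : (C (a i)).degree < (q * X).degree := by
      refine degree_C_le.trans_lt (natDegree_pos_iff_degree_pos.1 ?_)
      omega
    obtain ⟨hm, hd⟩ := ih (q * X + C (a i)) ((hq.mul monic_X).add_of_left h2)
    refine ⟨hm, hd.trans ?_⟩
    rw [natDegree_add_C, h1, List.length_cons]
    omega

omit [CompatibleRing K] in
theorem exists_hornerPoly : ∀ {n : ℕ} {p : K[X]}, p.Monic → p.natDegree = n →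
    ∃ a : Fin n → K, hornerPoly a = p
  | 0, p, hp, hd => ⟨Fin.elim0, by
      simpa [hornerPoly, eq_comm] using hp.natDegree_eq_zero.1 hd⟩
  | n + 1, p, hp, hd => by
    have hd' : p.divX.natDegree = n := by rw [natDegree_divX_eq_natDegree_tsub_one, hd]; rfl
    have hm : p.divX.Monic := by
      rw [Monic, leadingCoeff, hd', coeff_divX, ← hd]
      exact hp
    obtain ⟨a, ha⟩ := exists_hornerPoly hm hd'
    refine ⟨Fin.snoc a (p.coeff 0), ?_⟩
    rw [hornerPoly, List.finRange_succ_last]
    simp only [List.foldl_append, List.foldl_map, Fin.snoc_castSucc, List.foldl_cons,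
      List.foldl_nil, Fin.snoc_last]
    rw [hornerPoly] at ha
    rw [ha, divX_mul_X_add]

theorem realize_hornerTerm {n : ℕ} (v : Empty → K) (xs : Fin n → K) (x : K) :
    (hornerTerm n).realize (Sum.elim v (Fin.snoc xs x)) = (hornerPoly xs).eval x := by
  suffices h : ∀ (l : List (Fin n)) (t : Language.ring.Term (Empty ⊕ Fin (n + 1))) (q : K[X]),
      t.realize (Sum.elim v (Fin.snoc xs x)) = q.eval x →
      (l.foldl (fun t i => t * .var (.inr (Fin.last n)) + .var (.inr i.castSucc)) t).realize
          (Sum.elim v (Fin.snoc xs x)) =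
        (l.foldl (fun q i => q * X + C (xs i)) q).eval x from
    h _ 1 1 (by simp)
  intro l
  induction l with
  | nil => exact fun t q h => h
  | cons i l ih => exact fun t q h => ih _ _ (by simp [h])

theorem realize_rootAxiom (n : ℕ) : K ⊨ rootAxiom n ↔
    ∀ p : { p : K[X] // p.Monic ∧ p.natDegree = n }, ∃ x, p.1.eval x = 0 := by
  have e : ∀ a : Fin n → K,
      (BoundedFormula.equal (hornerTerm n) 0).ex.Realize (default : Empty → K) a ↔
        ∃ x, (hornerPoly a).eval x = 0 := fun a => by
    rw [BoundedFormula.realize_ex]
    refine exists_congr fun x => ?_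
    change Term.realize _ (hornerTerm n) = Term.realize _ 0 ↔ _
    rw [realize_hornerTerm]
    simp
  rw [rootAxiom, Sentence.Realize, BoundedFormula.realize_alls]
  simp only [e]
  exact ⟨fun h ⟨p, hp⟩ => by obtain ⟨a, rfl⟩ := exists_hornerPoly hp.1 hp.2; exact h a,
    fun h a => h ⟨hornerPoly a, hornerPoly_spec a⟩⟩

theorem realize_rootAxiom_iff (n : ℕ) :
    K ⊨ rootAxiom n ↔ K ⊨ Field.genericMonicPolyHasRoot n :=
  (realize_rootAxiom n).trans (Field.realize_genericMonicPolyHasRoot n).symm

theorem realize_numeralTerm (n : ℕ) (v : Empty ⊕ Fin 0 → K) :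
    (numeralTerm n).realize v = (n : K) := by
  induction n with
  | zero => simp [numeralTerm]
  | succ n ih => simp [numeralTerm, ih, add_comm]

theorem realize_numeralZero (n : ℕ) : K ⊨ numeralZero n ↔ (n : K) = 0 := by
  change Term.realize _ (numeralTerm n) = Term.realize _ 0 ↔ _
  rw [realize_numeralTerm]
  simp

end Realize

section Codes

/-- The word of a Horner term. -/
def hornerWord (n : ℕ) : List ℕ :=
  (List.range n).foldl
    (fun w i => addSym :: (mulSym :: (w ++ [varSym n]) ++ [varSym i])) [oneSym]

theorem termWord_hornerTerm (n : ℕ) : termWord (hornerTerm n) = hornerWord n := by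
  rw [hornerWord, ← List.map_coe_finRange_eq_range, List.foldl_map]
  suffices h : ∀ (l : List (Fin n)) (t : Language.ring.Term (Empty ⊕ Fin (n + 1))),
      termWord (l.foldl (fun t i => t * .var (.inr (Fin.last n)) + .var (.inr i.castSucc)) t) =
        l.foldl (fun w i => addSym :: (mulSym :: (w ++ [varSym n]) ++ [varSym i.1]))
          (termWord t) by
    simpa [hornerTerm, termWord_one] using h (List.finRange n) 1
  intro l
  induction l with
  | nil => exact fun t => rfl
  | cons i l ih =>
    intro t
    rw [List.foldl_cons, List.foldl_cons, ih]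
    simp [termWord_add, termWord_mul, EffectiveCompleteness.termWord_var]

theorem primrec_hornerWord : Primrec hornerWord :=
  Primrec.list_foldl Primrec.list_range (Primrec.const [oneSym])
    (Primrec.list_cons.comp (Primrec.const addSym) (Primrec.list_append.comp
      (Primrec.list_cons.comp (Primrec.const mulSym) (Primrec.list_append.comp
        (Primrec.fst.comp Primrec.snd) (Primrec.list_cons.comp
          (Primrec.nat_mul.comp (Primrec.const 2) (Primrec.succ.comp
            (Primrec.nat_mul.comp (Primrec.const 2) Primrec.fst))) (Primrec.const []))))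
      (Primrec.list_cons.comp (Primrec.nat_mul.comp (Primrec.const 2) (Primrec.succ.comp
        (Primrec.nat_mul.comp (Primrec.const 2) (Primrec.snd.comp Primrec.snd))))
        (Primrec.const [])))).to₂

/-- The word of a root axiom. -/
def rootWord (n : ℕ) : List ℕ :=
  List.replicate n (natSym 1) ++ natSym 0 :: ((natSym 1 :: natSym 0 ::
    ([termSym (n + 1) (hornerWord n), termSym (n + 1) [zeroSym] ] ++ [natSym (n + 3)])) ++
      [natSym (n + 2)])

theorem formWord_not {n : ℕ} (φ : Language.ring.BoundedFormula Empty n) :
    formWord φ.not = natSym 0 :: (formWord φ ++ [natSym (n + 2)]) :=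
  (EffectiveCompleteness.formWord_imp φ ⊥).trans
    (congrArg (fun w => natSym 0 :: (formWord φ ++ w)) EffectiveCompleteness.formWord_falsum)

theorem formWord_rootAxiom (n : ℕ) : formWord (rootAxiom n) = rootWord n := by
  rw [rootAxiom, formWord_alls, BoundedFormula.ex, formWord_not,
    EffectiveCompleteness.formWord_all, formWord_not, EffectiveCompleteness.formWord_equal,
    termWord_hornerTerm, termWord_zero]
  rfl

/-- The word of a numeral. -/
def numeralWord : ℕ → List ℕ
  | 0 => [zeroSym]
  | n + 1 => addSym :: oneSym :: numeralWord n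

theorem termWord_numeralTerm : ∀ n : ℕ, termWord (numeralTerm n) = numeralWord n
  | 0 => termWord_zero
  | n + 1 => by
    rw [numeralTerm, termWord_add, termWord_one, termWord_numeralTerm n]
    rfl

theorem primrec_numeralWord : Primrec numeralWord :=
  (Primrec.nat_rec₁ [zeroSym] (f := fun _ w => addSym :: oneSym :: w)
    (Primrec.list_cons.comp (Primrec.const addSym)
      (Primrec.list_cons.comp (Primrec.const oneSym) Primrec.snd)).to₂).of_eq fun n => by
    induction n with
    | zero => rfl
    | succ n ih => simp only [numeralWord, ← ih]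

theorem formWord_numeralNe (n : ℕ) : formWord (n := 0) (Formula.not (numeralZero n)) =
    natSym 0 :: ([termSym 0 (numeralWord n), termSym 0 [zeroSym] ] ++ [natSym 2]) := by
  rw [show Formula.not (numeralZero n) = BoundedFormula.not (numeralZero n) from rfl,
    formWord_not, numeralZero, EffectiveCompleteness.formWord_equal, termWord_numeralTerm,
    termWord_zero]

end Codes

end FA.TarskiDecidability
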