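import Fermat.Agent.Root.SummaryEffectiveCompleteness
import Fermat.Agent.TarskiDecidability.Axioms

/-!
# Theories with enumerable axioms and the same models

A complete theory is decidable as soon as some theory with recursively enumerable axioms has the
same models. The theory of fields with the axioms of roots and of the characteristic is one.
-/

set_option autoImplicit false

namespace FA.TarskiDecidability

open FirstOrder FirstOrder.Language EffectiveCompleteness

/-- A complete theory with the models of a recursively enumerable one is decidable. -/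
theorem decidable_of_same_models {L : Language.{0, 0}} [Encodable (Σ i, L.Functions i)]
    [Encodable (Σ i, L.Relations i)] [Finite (Σ i, L.Functions i)] [Finite (Σ i, L.Relations i)]
    {T T' : L.Theory} (hT' : REPred fun k => ∃ ψ ∈ T', k = code ψ) (hc : T.IsComplete)
    (h : ∀ (M : Type) [Nonempty M] [L.Structure M], M ⊨ T ↔ M ⊨ T') :
    ComputablePred fun k => ∃ φ : L.Sentence, k = code φ ∧ T ⊨ᵇ φ := by
  have e : ∀ φ : L.Sentence, T ⊨ᵇ φ ↔ T' ⊨ᵇ φ := fun φ => by
    simp only [Theory.models_sentence_iff]
    refine ⟨fun hT M => ?_, fun hT M => ?_⟩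
    · have := (h M).2 M.is_model
      exact hT (Theory.ModelType.of T M)
    · have := (h M).1 M.is_model
      exact hT (Theory.ModelType.of T' M)
  have hc' : T'.IsComplete := by
    refine ⟨?_, fun φ => (hc.2 φ).imp (e φ).1 (e _).1⟩
    obtain ⟨M⟩ := hc.1
    have := (h M).1 M.is_model
    exact ⟨Theory.ModelType.of T' M⟩
  exact (complete_theory_decidable hT' hc').of_eq fun k => by simp only [e]

open FirstOrder.Ring FirstOrder.Field

/-- Field axioms, finitely many further axioms and the root axioms of the degrees `a * N + b`. -/
def fieldWith (S : List Language.ring.Sentence) (a b : ℕ) : Language.ring.Theory :=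
  Theory.field ∪ {φ | φ ∈ S} ∪ Set.range fun N => rootAxiom (a * N + b)

/-- The positive numbers are not zero. -/
def charZeroAxioms : Language.ring.Theory :=
  Set.range fun N => Formula.not (numeralZero (N + 1))

theorem primrec_rootCode : Primrec fun n => Encodable.encode (rootWord n) := by
  have hrep : Primrec fun n => List.replicate n (natSym 1) :=
    (Primrec.list_map Primrec.list_range (Primrec.const (natSym 1)).to₂).of_eq fun n => by
      simp [List.map_const']
  exact Primrec.encode.comp (Primrec.list_append.comp hrep (Primrec.list_cons.comp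
    (Primrec.const (natSym 0)) (Primrec.list_append.comp
      (Primrec.list_cons.comp (Primrec.const (natSym 1)) (Primrec.list_cons.comp
        (Primrec.const (natSym 0)) (Primrec.list_append.comp
          (Primrec.list_cons.comp (primrec_termSym.comp Primrec.succ primrec_hornerWord)
            (Primrec.list_cons.comp (primrec_termSym.comp Primrec.succ (Primrec.const [zeroSym]))
              (Primrec.const [])))
          (Primrec.list_cons.comp (primrec_natSym.comp
            (Primrec.nat_add.comp Primrec.id (Primrec.const 3))) (Primrec.const [])))))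
      (Primrec.list_cons.comp (primrec_natSym.comp
        (Primrec.nat_add.comp Primrec.id (Primrec.const 2))) (Primrec.const [])))))

theorem code_rootAxiom (n : ℕ) : code (rootAxiom n) = Encodable.encode (rootWord n) := by
  rw [← encode_formWord, formWord_rootAxiom]

theorem rePred_union {T U : Language.ring.Theory} (hT : REPred fun k => ∃ ψ ∈ T, k = code ψ)
    (hU : REPred fun k => ∃ ψ ∈ U, k = code ψ) :
    REPred fun k => ∃ ψ ∈ T ∪ U, k = code ψ := by
  obtain ⟨f, hf, hfT, hTf⟩ := exists_stages hT
  obtain ⟨g, hg, hgU, hUg⟩ := exists_stages hU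
  refine (rePred_exists_nat (c := fun k N => (f N ++ g N).any fun w =>
    decide (Encodable.encode w = k))
    (primrec_any (Primrec.list_append.comp (hf.comp Primrec.snd) (hg.comp Primrec.snd))
      (Primrec.eq.comp (Primrec.encode.comp Primrec.snd)
        (Primrec.fst.comp Primrec.fst)).decide.to₂).to_comp.to₂).of_eq fun k => ?_
  simp only [List.any_eq_true, List.mem_append, decide_eq_true_eq]
  constructor
  · rintro ⟨N, w, hw | hw, rfl⟩
    · obtain ⟨ψ, hψ, rfl⟩ := hfT N w hw
      exact ⟨ψ, .inl hψ, encode_formWord ψ⟩
    · obtain ⟨ψ, hψ, rfl⟩ := hgU N w hw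
      exact ⟨ψ, .inr hψ, encode_formWord ψ⟩
  · rintro ⟨ψ, hψ | hψ, rfl⟩
    · obtain ⟨N, hN⟩ := hTf ψ hψ
      exact ⟨N, _, .inl hN, encode_formWord ψ⟩
    · obtain ⟨N, hN⟩ := hUg ψ hψ
      exact ⟨N, _, .inr hN, encode_formWord ψ⟩

theorem rePred_range {f : ℕ → Language.ring.Sentence} {c : ℕ → ℕ} (hc : Primrec c)
    (h : ∀ n, code (f n) = c n) : REPred fun k => ∃ ψ ∈ Set.range f, k = code ψ :=
  (rePred_exists_nat (c := fun k N => decide (c N = k))
    ((Primrec.eq.comp (hc.comp Primrec.snd) Primrec.fst).decide.to_comp.to₂)).of_eq fun k => by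
      simp [h, eq_comm]

theorem rePred_finite {T : Language.ring.Theory} (hT : T.Finite) :
    REPred fun k => ∃ ψ ∈ T, k = code ψ := by
  classical
  let K := hT.toFinset.toList.map code
  refine (rePred_exists_nat (c := fun k _ => K.any fun j => decide (j = k))
    (primrec_any (Primrec.const K) (Primrec.eq.comp Primrec.snd
      (Primrec.fst.comp Primrec.fst)).decide.to₂).to_comp.to₂).of_eq fun k => ?_
  simp only [K, List.any_eq_true, List.mem_map, Finset.mem_toList, Set.Finite.mem_toFinset,
    decide_eq_true_eq, exists_const]
  exact ⟨fun ⟨_, ⟨ψ, h, e₁⟩, e⟩ => ⟨ψ, h, (e₁.trans e).symm⟩,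
    fun ⟨ψ, h, e⟩ => ⟨_, ⟨ψ, h, rfl⟩, e.symm⟩⟩

theorem finite_field : (Theory.field : Language.ring.Theory).Finite := by
  refine ((List.finite_toSet ([.addAssoc, .zeroAdd, .negAddCancel, .mulAssoc, .mulComm, .oneMul,
    .existsInv, .leftDistrib, .existsPairNE] : List FieldAxiom)).image
      FieldAxiom.toSentence).subset ?_
  rintro _ ⟨x, rfl⟩
  exact ⟨x, by cases x <;> simp, rfl⟩

theorem rePred_fieldWith (S : List Language.ring.Sentence) (a b : ℕ) :
    REPred fun k => ∃ ψ ∈ fieldWith S a b, k = code ψ :=
  rePred_union (rePred_finite (finite_field.union (List.finite_toSet S)))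
    (rePred_range (primrec_rootCode.comp (Primrec.nat_add.comp
      (Primrec.nat_mul.comp (Primrec.const a) Primrec.id) (Primrec.const b)))
      fun _ => code_rootAxiom _)

theorem rePred_charZeroAxioms : REPred fun k => ∃ ψ ∈ charZeroAxioms, k = code ψ :=
  rePred_range (c := fun N => Encodable.encode
      (natSym 0 :: ([termSym 0 (numeralWord (N + 1)), termSym 0 [zeroSym] ] ++ [natSym 2])))
    (Primrec.encode.comp (Primrec.list_cons.comp (Primrec.const (natSym 0))
      (Primrec.list_cons.comp
        (primrec_termSym.comp (Primrec.const 0) (primrec_numeralWord.comp Primrec.succ))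
        (Primrec.const [termSym 0 [zeroSym], natSym 2]))))
    fun N => by rw [← encode_formWord, formWord_numeralNe]

/-- The replacement of the theory of algebraically closed fields. -/
def acfAxioms (p : ℕ) : Language.ring.Theory :=
  if p = 0 then fieldWith [] 1 1 ∪ charZeroAxioms else fieldWith [numeralZero p] 1 1

theorem rePred_acfAxioms (p : ℕ) : REPred fun k => ∃ ψ ∈ acfAxioms p, k = code ψ := by
  unfold acfAxioms
  split
  · exact rePred_union (rePred_fieldWith _ _ _) rePred_charZeroAxioms
  · exact rePred_fieldWith _ _ _

theorem model_fieldWith_iff {K : Type*} [Field K] [CompatibleRing K]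
    (S : List Language.ring.Sentence) (a b : ℕ) :
    K ⊨ fieldWith S a b ↔ (∀ φ ∈ S, K ⊨ φ) ∧
      ∀ N, K ⊨ genericMonicPolyHasRoot (a * N + b) := by
  simp only [fieldWith, Theory.model_union_iff,
    show K ⊨ (Theory.field : Language.ring.Theory) from inferInstance, true_and]
  simp [Theory.model_iff, realize_rootAxiom_iff]

/-- The same models as Mathlib's theory. -/
theorem model_acfAxioms_iff {p : ℕ} (hp : p.Prime ∨ p = 0) (M : Type)
    [Language.ring.Structure M] : M ⊨ Theory.ACF p ↔ M ⊨ acfAxioms p := by
  by_cases hf : M ⊨ (Theory.field : Language.ring.Theory)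
  · let _ := fieldOfModelField M
    let _ := compatibleRingOfModelField M
    have h1 : M ⊨ Theory.ACF p ↔ CharP M p ∧ ∀ N, M ⊨ genericMonicPolyHasRoot (N + 1) := by
      rw [Theory.ACF, Theory.model_union_iff, charP_iff_model_fieldOfChar]
      refine and_congr_right' ?_
      simp only [Theory.model_iff, Set.mem_image, forall_exists_index, and_imp,
        forall_apply_eq_imp_iff₂, Set.mem_ofPred_eq]
      exact ⟨fun h N => h _ N.succ_pos, fun h n hn => by
        simpa [Nat.sub_add_cancel hn] using h (n - 1)⟩
    rw [h1]
    unfold acfAxioms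
    split
    · subst p
      rw [Theory.model_union_iff, model_fieldWith_iff]
      simp only [charZeroAxioms, Theory.model_iff, Set.forall_mem_range, Sentence.realize_not,
        realize_numeralZero, List.not_mem_nil, false_imp_iff, implies_true, true_and, one_mul]
      rw [and_comm]
      refine and_congr_right' ⟨fun h N => ?_, fun h => ?_⟩
      · have := CharP.charP_to_charZero M
        exact Nat.cast_ne_zero.2 N.succ_ne_zero
      · have : CharZero M := charZero_of_inj_zero fun n hn => by
          by_contra h0
          exact h (n - 1) (by rwa [Nat.sub_add_cancel (Nat.pos_of_ne_zero h0)])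
        exact CharP.ofCharZero M
    · next h0 =>
      rw [model_fieldWith_iff]
      simp [realize_numeralZero, CharP.charP_iff_prime_eq_zero (hp.resolve_right h0)]
  · refine iff_of_false (fun h => hf (modelField_of_modelACF p M)) fun h => hf ?_
    unfold acfAxioms at h
    split at h
    · exact h.mono fun φ hφ => .inl (.inl (.inl hφ))
    · exact h.mono fun φ hφ => .inl (.inl hφ)

end FA.TarskiDecidability
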